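import Fermat.Agent.CMTorsionAllOrders.MultiplierRing

/-!
# The points killed by `n` as a module over an order

With multiplication by the order of discriminant `D = d f²` the points killed by `n` are free of
rank one over it, and the automorphisms fixing `√d` act through it.
-/

set_option autoImplicit false
set_option linter.style.haveILetI false
set_option linter.unusedSectionVars false

noncomputable section

open WeierstrassCurve FA.Mazur.Wp FA.IsogenyNF FA.CMFields
open scoped WeierstrassCurve.Affine Classical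

universe u v

namespace FA.CMTorsionAllOrders

variable {F : Type u} [Field F] [CharZero F] {Kb : Type v} [Field Kb] [DecidableEq Kb]
  [Algebra F Kb] [CharZero Kb] [IsAlgClosed Kb] [Algebra.IsAlgebraic F Kb]

/-- **The points killed by `n` as a module over the order.** -/
theorem exists_action (E : WeierstrassCurve F) [E.IsElliptic] (ψ : F →+* ℂ) {D d f : ℤ}
    (hD : D < 0) (hDdf : D = d * f ^ 2) {L : PeriodPair} (hg2 : L.g₂ = ψ E.c₄ / 12)
    (hg3 : L.g₃ = ψ E.c₆ / 216) (hring : IsMultiplierRing L D) {s : Kb} (hs : s ^ 2 = (d : Kb))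
    {n : ℕ} (hn : n ≠ 0) :
    ∃ (θ : (E.toAffine⁄Kb).Point →+ (E.toAffine⁄Kb).Point) (t m : ℤ),
      t ^ 2 - 4 * m = D ∧
      (∀ P : (E.toAffine⁄Kb).Point, n • P = 0 → θ (θ P) = t • θ P - m • P) ∧
      (∀ σ : Kb ≃ₐ[F] Kb, σ s = s → (∀ P, θ (σ • P) = σ • θ P) ∧ ∃ α k : ℤ,
        ∀ P : (E.toAffine⁄Kb).Point, n • P = 0 → σ • P = α • P + k • θ P) ∧
      ∀ c c' : ℤ, (∀ P : (E.toAffine⁄Kb).Point, n • P = 0 → c • P + c' • θ P = 0) →
        (n : ℤ) ∣ c ∧ (n : ℤ) ∣ c' := by
  letI := ψ.toAlgebra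
  let φ : Kb →ₐ[F] ℂ := IsAlgClosed.lift
  have hψ : ∀ c : F, φ (algebraMap F Kb c) = ψ c := φ.commutes
  obtain ⟨Cv, hC⟩ := exists_variableChange E
  haveI : (shortModel E).IsElliptic := hC ▸ inferInstance
  have hC' : Cv.map (algebraMap F Kb) • E.baseChange Kb = (shortModel E).baseChange Kb := by
    simp only [WeierstrassCurve.baseChange, map_variableChange, hC]
  have hL : ((shortModel E).baseChange Kb).map (φ : Kb →+* ℂ) = latCurve L := by
    ext <;> simp [WeierstrassCurve.baseChange, shortModel, latCurve, hg2, hg3, hψ, map_ofNat] <;>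
      ring
  set e := FA.Frob.vcEquiv _ hC' with he_def
  have he : ∀ σ : Kb ≃ₐ[F] Kb, ∀ P, e (σ • P) = σ • e P := fun σ P => vcEquiv_smul hC' σ P
  have he' : ∀ σ : Kb ≃ₐ[F] Kb, ∀ P, e.symm (σ • P) = σ • e.symm P := fun σ P => by
    apply e.injective
    rw [he, e.apply_symm_apply, e.apply_symm_apply]
  have hs0 := Real.sqrt_pos.mpr (neg_pos.mpr (Int.cast_lt_zero (R := ℝ) |>.mpr hD))
  have hω : ∀ k : ℤ, omega D ≠ k := fun k hk => by
    have := congrArg Complex.im hk
    rw [omega_im, Complex.intCast_im] at this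
    linarith
  obtain ⟨ω₀, θ, t, m, hω₀, -, hquad, hcomm, hθθ, hact, hfaith⟩ :=
    FA.CMRayClass.exists_action_short hL hω ((hring _).2 ⟨0, 1, by simp⟩)
      (primitive_omega hD hring) hn
  have hD' : t ^ 2 - 4 * m = D := by
    have hsq : ((Real.sqrt (-(D : ℝ)) : ℂ)) ^ 2 = -(D : ℂ) := by
      rw [← Complex.ofReal_pow, Real.sq_sqrt (neg_nonneg.mpr (Int.cast_nonpos.mpr hD.le))]
      push_cast; ring
    have him := congrArg Complex.im hquad
    have hre := congrArg Complex.re hquad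
    simp [omega, sq, Complex.div_ofNat_re, Complex.div_ofNat_im] at him hre
    have ht : (t : ℝ) = D := by nlinarith [hs0]
    have hms := Real.mul_self_sqrt (neg_nonneg.mpr ((Int.cast_nonpos (R := ℝ)).mpr hD.le))
    have : ((t ^ 2 - 4 * m : ℤ) : ℝ) = D := by
      push_cast
      rw [ht] at hre ⊢
      nlinarith [hms]
    exact_mod_cast this
  have hroot : ω₀ ^ 2 - (t : Kb) * ω₀ + (m : Kb) = 0 := (φ : Kb →+* ℂ).injective <| by
    rw [map_add, map_sub, map_pow, map_mul, map_intCast, map_intCast, hω₀, map_zero]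
    exact hquad
  have hfix : ∀ σ : Kb ≃ₐ[F] Kb, σ s = s → σ ω₀ = ω₀ := fun σ hσ => by
    have h1 : ((t : Kb) ^ 2 - 4 * m : Kb) = (d : Kb) * (f : Kb) ^ 2 := by
      exact_mod_cast congrArg (Int.cast (R := Kb)) (hD'.trans hDdf)
    have hsq : (2 * ω₀ - (t : Kb)) ^ 2 = ((f : Kb) * s) ^ 2 := by
      linear_combination 4 * hroot + h1 - (f : Kb) ^ 2 * hs
    have hmap : σ (2 * ω₀ - (t : Kb)) = 2 * ω₀ - (t : Kb) := by
      rcases sq_eq_sq_iff_eq_or_eq_neg.1 hsq with e | e <;> rw [e] <;>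
        simp [map_mul, map_neg, map_intCast, hσ]
    rw [map_sub, map_mul, map_ofNat, map_intCast, sub_left_inj] at hmap
    exact mul_left_cancel₀ two_ne_zero hmap
  refine ⟨(e.toAddMonoidHom.comp θ).comp e.symm.toAddMonoidHom, t, m, hD', fun P hP => ?_,
    fun σ hσ => ⟨fun P => ?_, ?_⟩, fun c c' hc => hfaith c c' fun P hP => e.injective ?_⟩
  · show e (θ (e.symm (e (θ (e.symm P))))) = t • e (θ (e.symm P)) - m • P
    rw [e.symm_apply_apply, hθθ _ (by rw [← map_nsmul, hP, map_zero]), map_sub, map_zsmul,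
      map_zsmul, e.apply_symm_apply]
  · show e (θ (e.symm (σ • P))) = σ • e (θ (e.symm P))
    rw [he', hcomm σ (hfix σ hσ), he]
  · obtain ⟨α, k, hαk⟩ := hact σ (hfix σ hσ)
    refine ⟨α, k, fun P hP => e.symm.injective ?_⟩
    show e.symm (σ • P) = e.symm (α • P + k • e (θ (e.symm P)))
    rw [he', hαk _ (by rw [← map_nsmul, hP, map_zero]), map_add, map_zsmul, map_zsmul,
      e.symm_apply_apply]
  · have h := hc (e P) (by rw [← map_nsmul, hP, map_zero])
    change c • e P + c' • e (θ (e.symm (e P))) = 0 at h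
    rw [e.symm_apply_apply] at h
    rwa [map_add, map_zsmul, map_zsmul, map_zero]

end FA.CMTorsionAllOrders

end
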