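import Fermat.Agent.CMRayClass.Units

/-!
# The ray classes of the rational integers

In a field without real places the ray class of `(c)`, for a rational `c` prime to the modulus,
depends only on `c` modulo `N` when `N` lies in the modulus; a prime in that class is generated by
an element congruent to `c`.
-/

set_option autoImplicit false
set_option linter.unusedSectionVars false

noncomputable section

open NumberField IsDedekindDomain
open FA.Hecke (RayClassGroup rayClass coprimeIdeals IsRayElt rayClass_eq_iff)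
open FA.Ext (primeIdeal)
open scoped nonZeroDivisors Classical

namespace FA.CMTorsionAllOrders

variable {K : Type*} [Field K] [NumberField K] {N : ℕ} [NeZero N]

local notation "𝔐" => Ideal.span {((N : ℕ) : 𝓞 K)}

theorem modulus_ne_bot : (𝔐 : Ideal (𝓞 K)) ≠ ⊥ := FA.CMRayClass.span_natCast_ne_bot (NeZero.ne N)

/-- Integers congruent modulo `N` are congruent modulo the ideal. -/
theorem sub_mem_of_zmod {a b : ℤ} (h : (a : ZMod N) = b) : (a : 𝓞 K) - b ∈ 𝔐 := by
  obtain ⟨w, hw⟩ := (ZMod.intCast_eq_intCast_iff_dvd_sub _ _ _).1 h.symm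
  refine Ideal.mem_span_singleton.mpr ⟨(w : 𝓞 K), ?_⟩
  exact_mod_cast congrArg (Int.cast (R := 𝓞 K)) hw

/-- The positive representative of a unit modulo `N`. -/
def rep (u : (ZMod N)ˣ) : ℕ := (u : ZMod N).val + N

theorem cast_rep (u : (ZMod N)ˣ) : ((rep u : ℕ) : ZMod N) = u := by
  simp [rep]

theorem rep_ne_zero (u : (ZMod N)ˣ) : rep u ≠ 0 := by
  have := NeZero.pos N
  unfold rep
  omega

/-- The ideal of the representative. -/
def repIdeal (u : (ZMod N)ˣ) : coprimeIdeals (K := K) 𝔐 :=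
  ⟨⟨Ideal.span {(rep u : 𝓞 K)}, mem_nonZeroDivisors_iff_ne_zero.mpr (by
    simpa using rep_ne_zero u)⟩, by
    show Ideal.span {(rep u : 𝓞 K)} ⊔ 𝔐 = ⊤
    rw [Ideal.eq_top_iff_one]
    have h : ((rep u : ℤ) : 𝓞 K) * ((rep u⁻¹ : ℤ) : 𝓞 K) - 1 ∈ 𝔐 := by
      rw [← Int.cast_one, ← Int.cast_mul]
      exact sub_mem_of_zmod (by push_cast; rw [cast_rep, cast_rep, Units.mul_inv])
    push_cast at h
    have := sub_mem (Ideal.mem_sup_left (T := 𝔐) (Ideal.mul_mem_right ((rep u⁻¹ : ℕ) : 𝓞 K) _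
      (Ideal.mem_span_singleton_self (rep u : 𝓞 K)))) (Ideal.mem_sup_right h)
    rwa [sub_sub_cancel] at this⟩

variable [IsTotallyComplex K]

/-- Without real places a ray element is just one congruent to `1`. -/
theorem isRayElt_of_congr {x : 𝓞 K} (hx0 : x ≠ 0) (hx : x - 1 ∈ 𝔐) : IsRayElt 𝔐 x := by
  refine ⟨hx0, hx, fun φ => ?_⟩
  exfalso
  have h : ComplexEmbedding.IsReal (Complex.ofRealHom.comp φ) := by
    rw [ComplexEmbedding.isReal_iff]
    ext z
    simp [ComplexEmbedding.conjugate]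
  exact InfinitePlace.not_isReal_iff_isComplex.mpr (IsTotallyComplex.isComplex _)
    ((InfinitePlace.isReal_mk_iff (φ := Complex.ofRealHom.comp φ)).mpr h)

/-- **The class of a unit modulo `N`.** -/
def intClass : (ZMod N)ˣ →* RayClassGroup (K := K) 𝔐 :=
  MonoidHom.mk' (fun u => rayClass modulus_ne_bot (repIdeal u)) fun u v => by
    rw [← map_mul, rayClass_eq_iff]
    set r : ℕ := rep (u * v)⁻¹
    refine ⟨(((rep u * rep v * r : ℕ)) : 𝓞 K), (((rep (u * v) * r : ℕ)) : 𝓞 K),
      isRayElt_of_congr ?_ ?_, isRayElt_of_congr ?_ ?_, ?_⟩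
    · exact Nat.cast_ne_zero.mpr (mul_ne_zero (mul_ne_zero (rep_ne_zero u) (rep_ne_zero v))
        (rep_ne_zero _))
    · have h := sub_mem_of_zmod (K := K) (N := N) (a := ((rep u * rep v * r : ℕ) : ℤ)) (b := 1)
        (by push_cast; rw [cast_rep, cast_rep, cast_rep, ← Units.val_mul, Units.mul_inv])
      simpa using h
    · exact Nat.cast_ne_zero.mpr (mul_ne_zero (rep_ne_zero _) (rep_ne_zero _))
    · have h := sub_mem_of_zmod (K := K) (N := N) (a := ((rep (u * v) * r : ℕ) : ℤ)) (b := 1)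
        (by push_cast; rw [cast_rep, cast_rep, Units.mul_inv])
      simpa using h
    · simp only [Submonoid.coe_mul, repIdeal, Ideal.span_singleton_mul_span_singleton]
      push_cast
      ring_nf

/-- **A prime in the class of `c` is generated by an element congruent to `c`.** -/
theorem exists_generator {v : HeightOneSpectrum (𝓞 K)} (hv : v.asIdeal ⊔ 𝔐 = ⊤) {u : (ZMod N)ˣ}
    (h : rayClass modulus_ne_bot ⟨primeIdeal v, hv⟩ = intClass u) :
    ∃ z : 𝓞 K, v.asIdeal = Ideal.span {(rep u : 𝓞 K) + (N : 𝓞 K) * z} := by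
  rw [intClass, MonoidHom.mk'_apply, rayClass_eq_iff] at h
  obtain ⟨x, y, hx, hy, hxy⟩ := h
  change Ideal.span {x} * v.asIdeal = Ideal.span {y} * Ideal.span {(rep u : 𝓞 K)} at hxy
  rw [Ideal.span_singleton_mul_span_singleton] at hxy
  have hle : Ideal.span {x} * v.asIdeal ≤ Ideal.span {x} := Ideal.mul_le_left
  rw [hxy] at hle
  obtain ⟨ρ, hρ⟩ : x ∣ y * (rep u : 𝓞 K) :=
    Ideal.mem_span_singleton.mp (hle (Ideal.mem_span_singleton_self _))
  rw [hρ, ← Ideal.span_singleton_mul_span_singleton] at hxy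
  have hx0 : Ideal.span {x} ≠ (⊥ : Ideal (𝓞 K)) := by
    rw [Ne, Ideal.span_singleton_eq_bot]
    exact hx.1
  have hv' : v.asIdeal = Ideal.span {ρ} := mul_left_cancel₀ hx0 hxy
  obtain ⟨z, hz⟩ := Ideal.mem_span_singleton.mp (show ρ - (rep u : 𝓞 K) ∈ 𝔐 by
    rw [show ρ - (rep u : 𝓞 K) = (y - 1) * (rep u : 𝓞 K) - (x - 1) * ρ by
      linear_combination -hρ]
    exact sub_mem (Ideal.mul_mem_right _ _ hy.2.1) (Ideal.mul_mem_right _ _ hx.2.1))
  exact ⟨z, by rw [hv', ← hz, add_sub_cancel]⟩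

end FA.CMTorsionAllOrders

end
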