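import Mathlib

/-!
# The congruences of a Frobenius element in the class of a rational integer

An element `α + k ω` of `ℤ[ω]`, `ω² - t ω + m = 0`, annihilated by `X² - a X + q` modulo `M` has
`a² - 4 q ≡ (t² - 4 m) k²`. If `q` is the norm of an element congruent to `c` this forces
`a ≡ ± 2 c` for discriminants below `-4`, and then the element is `± c` modulo `n` once
`8 (t² - 4 m)² n²` divides `M`.
-/

set_option autoImplicit false

namespace FA.CMTorsionAllOrders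

/-- The discriminant of the characteristic polynomial, where the element is a scalar modulo
`gcd(k, M)`. -/
theorem disc_congr {M t m α k a q : ℤ} (h1 : M ∣ k * (2 * α + t * k - a))
    (h2 : M ∣ α ^ 2 - m * k ^ 2 - a * α + q)
    (hg : ((Int.gcd k M : ℕ) : ℤ) ∣ 2 * α - a) :
    M ∣ a ^ 2 - 4 * q - (t ^ 2 - 4 * m) * k ^ 2 := by
  set g : ℤ := ((Int.gcd k M : ℕ) : ℤ) with hgdef
  set T : ℤ := 2 * α + t * k - a with hT
  have hgT : g ∣ T := by
    have : g ∣ t * k := dvd_mul_of_dvd_right (Int.gcd_dvd_left k M) t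
    have := dvd_add hg this
    rwa [hT, show 2 * α + t * k - a = 2 * α - a + t * k by ring]
  have hMgT : M ∣ g * T := by
    rw [hgdef, Int.gcd_eq_gcd_ab, add_mul]
    refine dvd_add ?_ (dvd_mul_of_dvd_left (dvd_mul_right M _) T)
    rw [mul_right_comm]
    exact dvd_mul_of_dvd_left h1 _
  have hT2 : M ∣ T ^ 2 := hMgT.trans (by rw [sq]; exact mul_dvd_mul_right hgT T)
  rw [show a ^ 2 - 4 * q - (t ^ 2 - 4 * m) * k ^ 2 =
    T ^ 2 - 2 * t * (k * T) - 4 * (α ^ 2 - m * k ^ 2 - a * α + q) by rw [hT]; ring]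
  exact dvd_sub (dvd_sub hT2 (dvd_mul_of_dvd_right h1 _)) (dvd_mul_of_dvd_right h2 _)

/-- A product of two integers divisible by an odd prime, one factor even, has the other sign. -/
theorem two_q_dvd {q : ℕ} (hq : q.Prime) (hq2 : q ≠ 2) {x : ℤ} (h : (q : ℤ) ∣ x) (h2 : 2 ∣ x) :
    2 * (q : ℤ) ∣ x :=
  IsCoprime.mul_dvd (Int.isCoprime_iff_nat_coprime.mpr
    (by simpa using ((Nat.coprime_primes Nat.prime_two hq).mpr hq2.symm))) h2 h

/-- **Two representations of `4 q` differ by a unit of the field.** -/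
theorem exists_unit_trace {q : ℕ} (hq : q.Prime) (hq2 : q ≠ 2) {d a b a' b' : ℤ}
    (h : a ^ 2 - 4 * (q : ℤ) = d * b ^ 2) (h' : a' ^ 2 - 4 * (q : ℤ) = d * b' ^ 2) :
    ∃ τ η : ℤ, τ ^ 2 - d * η ^ 2 = 4 ∧ 2 * a = τ * a' + d * η * b' := by
  have hqZ : Prime (q : ℤ) := Nat.prime_iff_prime_int.mp hq
  have hprod : (q : ℤ) ∣ (a' * b - a * b') * (a' * b + a * b') :=
    ⟨4 * (b ^ 2 - b' ^ 2), by linear_combination b ^ 2 * h' - b' ^ 2 * h⟩
  -- the sign of `b`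
  wlog hdiv : (q : ℤ) ∣ a' * b - a * b' generalizing b with H
  · refine H (b := -b) (by rw [neg_sq]; exact h) ?_ ?_
    · rw [show (a' * -b - a * b') * (a' * -b + a * b') =
        (a' * b - a * b') * (a' * b + a * b') by ring]
      exact hprod
    · rw [show a' * -b - a * b' = -(a' * b + a * b') by ring]
      exact dvd_neg.mpr ((hqZ.dvd_or_dvd hprod).resolve_left hdiv)
  have hpar : ∀ x y : ℤ, x ^ 2 - 4 * (q : ℤ) = d * y ^ 2 → 2 ∣ x - d * y := fun x y hxy => by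
    have h0 : (x : ZMod 2) ^ 2 - 4 * (q : ZMod 2) = (d : ZMod 2) * (y : ZMod 2) ^ 2 := by
      exact_mod_cast congrArg (Int.cast (R := ZMod 2)) hxy
    have hsq : ∀ z : ZMod 2, z ^ 2 = z := by decide
    rw [hsq, hsq, show (4 : ZMod 2) = 0 from by decide, zero_mul, sub_zero] at h0
    refine (ZMod.intCast_zmod_eq_zero_iff_dvd (x - d * y) 2).mp ?_
    push_cast
    rw [h0, sub_self]
  obtain ⟨u, hu⟩ := hpar a b h
  obtain ⟨u', hu'⟩ := hpar a' b' h'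
  have hη2 : 2 ∣ a' * b - a * b' := ⟨u' * b - u * b', by linear_combination b * hu' - b' * hu⟩
  obtain ⟨η, hη⟩ := two_q_dvd hq hq2 hdiv hη2
  have hsq : (a * a' - d * b * b') ^ 2 - d * (a' * b - a * b') ^ 2 = 16 * (q : ℤ) ^ 2 := by
    linear_combination (a' ^ 2 - d * b' ^ 2) * h + 4 * (q : ℤ) * h'
  have hτq : (q : ℤ) ∣ a * a' - d * b * b' := by
    refine hqZ.dvd_of_dvd_pow (n := 2) ⟨4 * (q : ℤ) * (4 + d * η ^ 2), ?_⟩
    rw [hη] at hsq
    linear_combination hsq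
  have hτ2 : 2 ∣ a * a' - d * b * b' := by
    have hdd : 2 ∣ d * (d - 1) := by
      rcases Int.even_or_odd d with ⟨r, hr⟩ | ⟨r, hr⟩
      · exact ⟨r * (d - 1), by rw [hr]; ring⟩
      · exact ⟨d * r, by rw [hr]; ring⟩
    have : a * a' - d * b * b' = 2 * (u * a' + d * b * u') + d * (d - 1) * (b * b') := by
      linear_combination a' * hu + d * b * hu'
    rw [this]
    exact dvd_add (dvd_mul_right 2 _) (dvd_mul_of_dvd_left hdd _)
  obtain ⟨τ, hτ⟩ := two_q_dvd hq hq2 hτq hτ2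
  have hq0 : (q : ℤ) ≠ 0 := hqZ.ne_zero
  refine ⟨τ, η, mul_left_cancel₀ (pow_ne_zero 2 (mul_ne_zero two_ne_zero hq0)) ?_,
    mul_left_cancel₀ (mul_ne_zero two_ne_zero hq0) ?_⟩
  · rw [hτ, hη] at hsq
    linear_combination hsq
  · linear_combination a' * hτ + d * b' * hη - a * h'

/-- **The trace is `± 2 c`** when the discriminant is below `-4`. -/
theorem trace_eq_sign {q : ℕ} (hq : q.Prime) (hq2 : q ≠ 2) {d a b c u v M D : ℤ} (hd0 : d < 0)
    (h : a ^ 2 - 4 * (q : ℤ) = d * b ^ 2)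
    (hρ : (2 * c + 2 * M * u) ^ 2 - 4 * (q : ℤ) = d * (2 * M * v) ^ 2)
    (hD : D < -4) (hDM : D ∣ M) (hdisc : D ∣ a ^ 2 - 4 * q) (hc : IsCoprime c M) :
    ∃ ε : ℤ, (ε = 1 ∨ ε = -1) ∧ M ∣ a - 2 * (ε * c) ∧ M ∣ q - c ^ 2 := by
  obtain ⟨τ, η, hunit, h2a⟩ := exists_unit_trace hq hq2 h hρ
  have ha : M ∣ a - τ * c := ⟨τ * u + d * η * v, by linarith [h2a]⟩
  have hqc : M ∣ (q : ℤ) - c ^ 2 := ⟨2 * c * u + M * u ^ 2 - d * M * v ^ 2, by linarith [hρ]⟩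
  have hτ2 : τ ^ 2 = 4 := by
    by_contra hne
    have h0 : 0 ≤ -d * η ^ 2 := mul_nonneg (by linarith) (sq_nonneg η)
    have hle : τ ^ 2 ≤ 4 := by linarith
    have hdiv : D ∣ (τ ^ 2 - 4) * c ^ 2 := by
      have h1 := hDM.trans ha
      have h2 := hDM.trans hqc
      have := dvd_add (dvd_sub hdisc (h1.mul_right (a + τ * c))) (h2.mul_left 4)
      rwa [show a ^ 2 - 4 * (q : ℤ) - (a - τ * c) * (a + τ * c) + 4 * ((q : ℤ) - c ^ 2) =
        (τ ^ 2 - 4) * c ^ 2 by ring] at this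
    obtain ⟨r, hr⟩ := hDM
    have hcD : IsCoprime (c ^ 2) D := (hc.of_isCoprime_of_dvd_right ⟨r, hr⟩).pow_left
    have h4 : -D ∣ 4 - τ ^ 2 := by
      rw [neg_dvd, ← neg_sub (τ ^ 2), dvd_neg]
      exact hcD.symm.dvd_of_dvd_mul_right hdiv
    have h5 := Int.le_of_dvd (by omega) h4
    nlinarith [sq_nonneg τ]
  rcases sq_eq_sq_iff_eq_or_eq_neg.mp (show τ ^ 2 = 2 ^ 2 by rw [hτ2]; norm_num) with rfl | rfl
  · exact ⟨1, Or.inl rfl, by simpa using ha, hqc⟩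
  · exact ⟨-1, Or.inr rfl, by simpa using ha, hqc⟩

/-- **The element is the scalar modulo `n`.** -/
theorem scalar_of_congr {n : ℕ} {M t m α k a q c : ℤ} (hD : t ^ 2 - 4 * m ≠ 0)
    (hM : 8 * (t ^ 2 - 4 * m) ^ 2 * (n : ℤ) ^ 2 ∣ M)
    (h1 : M ∣ k * (2 * α + t * k - a)) (h2 : M ∣ α ^ 2 - m * k ^ 2 - a * α + q)
    (ha : M ∣ a - 2 * c) (hq : M ∣ q - c ^ 2) : (n : ℤ) ∣ α - c ∧ (n : ℤ) ∣ k := by
  set D : ℤ := t ^ 2 - 4 * m with hDdef
  set U : ℤ := α - c with hU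
  set T : ℤ := 2 * U + t * k with hT
  have hkT : M ∣ k * T := by
    have := dvd_add h1 (ha.mul_left k)
    rwa [show k * (2 * α + t * k - a) + k * (a - 2 * c) = k * T by rw [hT, hU]; ring] at this
  have hU2 : M ∣ U ^ 2 - m * k ^ 2 := by
    have := dvd_sub (dvd_add h2 (ha.mul_left α)) hq
    rwa [show α ^ 2 - m * k ^ 2 - a * α + q + α * (a - 2 * c) - (q - c ^ 2) =
      U ^ 2 - m * k ^ 2 by rw [hU]; ring] at this
  have hplus : M ∣ T ^ 2 + D * k ^ 2 := by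
    rw [show T ^ 2 + D * k ^ 2 = 4 * (U ^ 2 - m * k ^ 2) + 2 * t * (k * T) by
      rw [hT, hDdef]; ring]
    exact dvd_add (hU2.mul_left 4) (hkT.mul_left _)
  have hminus : M ∣ T ^ 2 - D * k ^ 2 := by
    refine (Int.pow_dvd_pow_iff two_ne_zero).mp ?_
    rw [show (T ^ 2 - D * k ^ 2) ^ 2 = (T ^ 2 + D * k ^ 2) ^ 2 - 4 * D * (k * T) ^ 2 by ring]
    exact dvd_sub (pow_dvd_pow_of_dvd hplus 2) ((pow_dvd_pow_of_dvd hkT 2).mul_left _)
  have hk : (2 * (n : ℤ)) ∣ k := by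
    have := hM.trans (dvd_sub hplus hminus)
    rw [show T ^ 2 + D * k ^ 2 - (T ^ 2 - D * k ^ 2) = 2 * D * k ^ 2 by ring,
      show 8 * D ^ 2 * (n : ℤ) ^ 2 = 2 * D * (D * (2 * (n : ℤ)) ^ 2) by ring] at this
    exact (Int.pow_dvd_pow_iff two_ne_zero).mp
      (dvd_of_mul_left_dvd ((mul_dvd_mul_iff_left (mul_ne_zero two_ne_zero hD)).mp this))
  have hT' : (2 * (n : ℤ)) ∣ T := by
    have := hM.trans (dvd_add hplus hminus)
    rw [show T ^ 2 + D * k ^ 2 + (T ^ 2 - D * k ^ 2) = 2 * T ^ 2 by ring,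
      show 8 * D ^ 2 * (n : ℤ) ^ 2 = 2 * (D * (2 * (n : ℤ))) ^ 2 by ring] at this
    exact dvd_of_mul_left_dvd ((Int.pow_dvd_pow_iff two_ne_zero).mp
      ((mul_dvd_mul_iff_left two_ne_zero).mp this))
  refine ⟨(mul_dvd_mul_iff_left (two_ne_zero (α := ℤ))).mp ?_, dvd_of_mul_left_dvd hk⟩
  rw [show 2 * U = T - t * k by rw [hT]; ring]
  exact dvd_sub hT' (hk.mul_left t)

end FA.CMTorsionAllOrders
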