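import Fermat.Agent.CMRayClass.Level
import Fermat.Agent.CMTorsionBound.Transfer
import Fermat.Agent.CMTorsionAllOrders.Action
import Fermat.Agent.CMTorsionAllOrders.Classes
import Fermat.Agent.CMTorsionAllOrders.Congruence

/-!
# An automorphism in the class of a rational integer is a scalar

Let `E` over `F` have multiplication by the order of discriminant `D = d f² < -4`. If an
automorphism fixing `F(√d)` acts on the ray class field modulo `16 D² n²` as the class of an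
integer `c`, then it is multiplication by `± c` on the points killed by `n`: so is an agreeing
Frobenius element.
-/

set_option autoImplicit false
set_option linter.style.haveILetI false
set_option linter.unusedSectionVars false

noncomputable section

open WeierstrassCurve NumberField IsDedekindDomain FA.IsogenyNF FA.CMFields
open FA.JugendtraumField (exists_good exists_trace)
open FA.FieldClassBound (discK exists_emb exists_omega_coord omega_discK)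
open FA.Hecke (RayClassGroup rayClass)
open FA.Ext (primeIdeal)
open FA.CMRayClass (overK apply_of_mem_adjoin)
open FA.ClassNumberOne (xP yP)
open FA.CMTorsionBound (upPoint upPoint_injective upPoint_some)
open scoped WeierstrassCurve.Affine Classical Pointwise

local notation "Qb" => AlgebraicClosure ℚ
local notation "GQ" => AlgebraicClosure ℚ ≃ₐ[ℚ] AlgebraicClosure ℚ

namespace FA.CMTorsionAllOrders

/-- An automorphism over `F` fixes the points over `F`. -/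
theorem smul_upPoint {F : IntermediateField ℚ Qb} (E : WeierstrassCurve F) [E.IsElliptic]
    (σ : Qb ≃ₐ[F] Qb) (P : E.toAffine.Point) : σ • upPoint E P = upPoint E P := by
  rcases P with _ | ⟨x, y, h⟩
  · rw [← Affine.Point.zero_def, map_zero]
    rfl
  obtain ⟨h', e⟩ := upPoint_some E h
  rw [e]
  obtain ⟨h'', e'⟩ := FA.Local.smul_some (σ := σ) E h'
  rw [e']
  exact (Affine.Point.some.injEq ..).mpr ⟨σ.commutes x, σ.commutes y⟩

variable {d : ℤ} {s : Qb}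

set_option quotPrecheck false in
local notation "𝕂" => IntermediateField.adjoin ℚ ({s} : Set (AlgebraicClosure ℚ))

/-- **A generator congruent to `c` gives a representation of `4 q`.** -/
theorem exists_representation [NumberField 𝕂] (hd : Squarefree d) (hd0 : d < 0)
    (hs : s ^ 2 = (d : Qb)) {v : Ideal (𝓞 𝕂)} {q M c : ℕ} (hv : Ideal.absNorm v = q) {z : 𝓞 𝕂}
    (h : v = Ideal.span {(c : 𝓞 𝕂) + ((2 * M : ℕ) : 𝓞 𝕂) * z}) :
    ∃ u w : ℤ, (2 * (c : ℤ) + 2 * (M : ℤ) * u) ^ 2 - 4 * (q : ℤ) =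
      d * (2 * (M : ℤ) * w) ^ 2 := by
  have hsK : s ∈ 𝕂 := IntermediateField.mem_adjoin_simple_self ℚ s
  have hK := FA.Jugendtraum.finrank_adjoin_sqrt hd0 hs
  haveI : Algebra.IsQuadraticExtension ℚ 𝕂 := { finrank_eq_two' := hK }
  set sK : 𝕂 := ⟨s, hsK⟩ with hsKdef
  have hsK2 : sK ^ 2 = (d : 𝕂) := Subtype.ext (by simpa [hsKdef] using hs)
  obtain ⟨c₀, hc₀⟩ : ∃ c₀ : 𝕂 ≃ₐ[ℚ] 𝕂, c₀ sK = -sK := by
    by_contra hcon
    push Not at hcon
    have hfixed : sK ∈ (⊥ : IntermediateField ℚ 𝕂) := by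
      rw [← IsGalois.fixedField_top (F := ℚ) (E := 𝕂), IntermediateField.mem_fixedField_iff]
      intro g _
      exact ((sq_eq_sq_iff_eq_or_eq_neg).mp (by
        rw [← map_pow, hsK2, map_intCast])).resolve_right (hcon g)
    obtain ⟨r, hr⟩ := IntermediateField.mem_bot.mp hfixed
    have hsq : r ^ 2 = (d : ℚ) := (algebraMap ℚ 𝕂).injective (by
      rw [map_pow, hr, map_intCast]; exact hsK2)
    have : (d : ℚ) < 0 := Int.cast_lt_zero.mpr hd0
    nlinarith [sq_nonneg r]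
  obtain ⟨e, he⟩ := exists_emb hd0 hsK2
  obtain ⟨x, y, hxy⟩ := exists_omega_coord hK hd hd0 hsK2 he z
  obtain ⟨u, w, huw⟩ : ∃ u w : ℤ, 2 * (z : 𝕂) = (u : 𝕂) + (w : 𝕂) * sK := by
    rw [omega_discK d] at hxy
    split_ifs at hxy
    · refine ⟨2 * x + y * d, y, e.injective ?_⟩
      simp only [map_mul, map_add, map_ofNat, map_intCast, he, hxy]
      push_cast
      ring
    · refine ⟨2 * x + 4 * (y * d), 2 * y, e.injective ?_⟩
      simp only [map_mul, map_add, map_ofNat, map_intCast, he, hxy]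
      push_cast
      ring
  refine ⟨u, w, ?_⟩
  set X : ℤ := (c : ℤ) + (M : ℤ) * u
  set Y : ℤ := (M : ℤ) * w
  set π : 𝓞 𝕂 := (c : 𝓞 𝕂) + ((2 * M : ℕ) : 𝓞 𝕂) * z with hπ
  set π' : 𝓞 𝕂 := ((2 * X : ℤ) : 𝓞 𝕂) - π with hπ'
  have hπK : (π : 𝕂) = (X : 𝕂) + (Y : 𝕂) * sK := by
    simp only [hπ, X, Y, map_add, map_mul, map_natCast]
    push_cast
    linear_combination (M : 𝕂) * huw
  have hπ'K : (π' : 𝕂) = (X : 𝕂) - (Y : 𝕂) * sK := by
    simp only [hπ', map_sub, map_intCast, hπK]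
    push_cast
    ring
  have hprod : π * π' = ((X ^ 2 - d * Y ^ 2 : ℤ) : 𝓞 𝕂) := RingOfIntegers.coe_injective (by
    rw [map_mul, map_intCast]
    refine (congrArg₂ (· * ·) hπK hπ'K).trans ?_
    push_cast
    linear_combination -(Y : 𝕂) ^ 2 * hsK2)
  have hN : Algebra.norm ℤ π' = Algebra.norm ℤ π := Int.cast_injective (α := ℚ) (by
    rw [Algebra.coe_norm_int, Algebra.coe_norm_int, hπ'K, hπK,
      show (X : 𝕂) - (Y : 𝕂) * sK = c₀ ((X : 𝕂) + (Y : 𝕂) * sK) by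
        rw [map_add, map_mul, map_intCast, map_intCast, hc₀]; ring]
    exact Algebra.norm_eq_of_algEquiv c₀ _)
  have hq : (Algebra.norm ℤ π).natAbs = q := by
    rw [← Ideal.absNorm_span_singleton, ← h, hv]
  have hsq := congrArg (fun x => (Algebra.norm ℤ x).natAbs) hprod
  simp only [map_mul, hN, Int.natAbs_mul, hq] at hsq
  rw [← eq_intCast (algebraMap ℤ (𝓞 𝕂)), Algebra.norm_algebraMap, RingOfIntegers.rank, hK,
    Int.natAbs_pow, ← sq] at hsq
  have hpos : 0 ≤ X ^ 2 - d * Y ^ 2 := by nlinarith [sq_nonneg X, sq_nonneg Y]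
  have hqX : (q : ℤ) = X ^ 2 - d * Y ^ 2 := by
    rw [Nat.pow_left_injective two_ne_zero hsq, Int.natAbs_of_nonneg hpos]
  rw [hqX]
  simp only [X, Y]
  ring

/-- **A Frobenius element agreeing with an automorphism in the class of `c`** has `4 q` represented
with `2 c` modulo `2 M`. -/
theorem exists_frobenius_representation (hd : Squarefree d) (hd0 : d < 0) (hs : s ^ 2 = (d : Qb))
    [NumberField 𝕂] [IsTotallyComplex 𝕂] {M N : ℕ} [NeZero N] (hN : N = 2 * M)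
    {R : Type} [Field R] [NumberField R] [Algebra 𝕂 R] [IsGalois 𝕂 R]
    (ω : RayClassGroup (Ideal.span {(N : 𝓞 𝕂)}) →* (R ≃ₐ[𝕂] R)) (hinj : Function.Injective ω)
    (hω : ∀ (v : HeightOneSpectrum (𝓞 𝕂)) (hv : v.asIdeal ⊔ Ideal.span {(N : 𝓞 𝕂)} = ⊤)
      (Q : HeightOneSpectrum (𝓞 R)) (τ : R ≃ₐ[𝕂] R), Q.asIdeal.under (𝓞 𝕂) = v.asIdeal →
        IsArithFrobAt (𝓞 𝕂) τ Q.asIdeal → ω (rayClass modulus_ne_bot ⟨primeIdeal v, hv⟩) = τ)
    (ι : R →ₐ[𝕂] Qb) {σ : GQ} (hσs : σ s = s) (u : (ZMod N)ˣ)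
    (hσu : ∀ z : R, σ (ι z) = ι (ω (intClass u) z)) (M₀ : IntermediateField ℚ Qb)
    [FiniteDimensional ℚ M₀] (S : Finset ℕ) :
    ∃ q : ℕ, q.Prime ∧ q ∉ S ∧ ¬ q ∣ N ∧ ∃ (A : ValuationSubring Qb) (φ : GQ),
      A.LiesOverPrime q ∧ A.IsFrobeniusAt φ q ∧ φ s = s ∧ (∀ y ∈ M₀, φ y = σ y) ∧
        ∃ u₁ w₁ : ℤ, (2 * ((rep u : ℕ) : ℤ) + 2 * (M : ℤ) * u₁) ^ 2 - 4 * (q : ℤ) =
          d * (2 * (M : ℤ) * w₁) ^ 2 := by
  haveI : IsGalois ℚ Qb := FA.EC.isGalois_algebraicClosure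
  have hsK : s ∈ 𝕂 := IntermediateField.mem_adjoin_simple_self ℚ s
  have hN0 : N ≠ 0 := NeZero.ne N
  let ιℚ : R →ₐ[ℚ] Qb := ι.toRingHom.toRatAlgHom
  haveI : FiniteDimensional ℚ ιℚ.fieldRange :=
    Module.Finite.equiv (AlgEquiv.ofInjectiveField ιℚ).toLinearEquiv
  set M₁ := IntermediateField.normalClosure ℚ (M₀ ⊔ 𝕂 ⊔ ιℚ.fieldRange :
    IntermediateField ℚ Qb) Qb with hM₁
  haveI : Normal ℚ M₁ := normalClosure.normal ℚ _ Qb
  haveI : FiniteDimensional ℚ M₁ := normalClosure.is_finiteDimensional ℚ _ Qb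
  haveI : IsGalois ℚ M₁ := ⟨⟩
  have hle : M₀ ⊔ 𝕂 ⊔ ιℚ.fieldRange ≤ M₁ := IntermediateField.le_normalClosure _
  have hM₀M : M₀ ≤ M₁ := le_trans (le_trans le_sup_left le_sup_left) hle
  have hKM : 𝕂 ≤ M₁ := le_trans (le_trans le_sup_right le_sup_left) hle
  have hRM : ιℚ.fieldRange ≤ M₁ := le_trans le_sup_right hle
  let res : GQ →* (M₁ ≃ₐ[ℚ] M₁) := AlgEquiv.restrictNormalHom M₁
  have hker : IsOpen (res.ker : Set GQ) := FA.Chebotarev.isOpen_ker_restrict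
  obtain ⟨q, hq, hqS, hF⟩ := FA.OpenImageAll.exists_frobenius_mem_of_mem res hker
    (X := {g | IsConj (res σ) g}) (fun g hg x => hg.trans (isConj_iff.mpr ⟨x, rfl⟩))
    (σ := σ) (IsConj.refl _) (S ∪ N.primeFactors)
  simp only [Finset.mem_union, not_or] at hqS
  obtain ⟨hqS', hqN'⟩ := hqS
  haveI := Fact.mk hq
  have hqN : ¬ q ∣ N := fun hd' => hqN' (Nat.mem_primeFactors.mpr ⟨hq, hd', hN0⟩)
  obtain ⟨A₀, hA₀⟩ := FA.Deform.exists_liesOverPrime hq
  obtain ⟨φ₀, hφ₀⟩ := FA.Deform.exists_isFrobeniusAt hq hA₀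
  obtain ⟨x, hx⟩ := isConj_iff.mp (hF A₀ hA₀ φ₀ hφ₀)
  obtain ⟨g, hg⟩ := AlgEquiv.restrictNormalHom_surjective (F := ℚ) (K₁ := M₁) Qb x
  set A := g⁻¹ • A₀ with hAdef
  set φ := g⁻¹ * φ₀ * g⁻¹⁻¹ with hφdef
  have hA : A.LiesOverPrime q := FA.Density.liesOverPrime_smul hA₀ g⁻¹
  have hφ : A.IsFrobeniusAt φ q := FA.Density.isFrobeniusAt_smul hφ₀ g⁻¹
  have hfφ : res φ = res σ := by
    rw [hφdef, inv_inv, map_mul, map_mul, map_inv, show res g = x from hg, ← hx]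
    group
  have hagree : ∀ y ∈ M₁, φ y = σ y := fun y hy => by
    have h1 := AlgEquiv.restrictNormal_commutes φ M₁ ⟨y, hy⟩
    have h2 := AlgEquiv.restrictNormal_commutes σ M₁ ⟨y, hy⟩
    exact h1.symm.trans ((congrArg (fun u : M₁ ≃ₐ[ℚ] M₁ => ((u ⟨y, hy⟩ : M₁) : Qb)) hfφ).trans h2)
  have hφs : φ s = s := (hagree s (hKM hsK)).trans hσs
  -- the Frobenius element on `R`
  letI : Algebra R Qb := ι.toRingHom.toAlgebra
  haveI : IsScalarTower 𝕂 R Qb := IsScalarTower.of_algebraMap_eq fun k => (ι.commutes k).symm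
  set τ : R ≃ₐ[𝕂] R := (overK hφs).restrictNormal R with hτdef
  have hτ : ∀ y : R, ι (τ y) = φ (ι y) := fun y => (overK hφs).restrictNormal_commutes R y
  let j : 𝓞 R →+* FA.Deform.ZBar := (ι.toRingHom.comp (algebraMap (𝓞 R) R)).codRestrict
    (integralClosure ℤ Qb).toSubring fun y =>
      (map_isIntegral_int ι.toRingHom (RingOfIntegers.isIntegral_coe y) :)
  let Q₀ : Ideal (𝓞 R) := (FA.Deform.primeAt A).comap j
  have hqQ : (q : 𝓞 R) ∈ Q₀ := by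
    show j q ∈ FA.Deform.primeAt A
    rw [map_natCast, FA.Deform.mem_primeAt]
    exact hA
  have hQp : Q₀.IsPrime := Ideal.comap_isPrime _ _
  have hQ0 : Q₀ ≠ ⊥ := fun h => by
    rw [h, Ideal.mem_bot] at hqQ
    exact hq.ne_zero (by exact_mod_cast hqQ)
  haveI : Q₀.IsMaximal := hQp.isMaximal hQ0
  have hfrob₀ : ∀ y : 𝓞 R, τ • y - y ^ q ∈ Q₀ := fun y => by
    show j (τ • y - y ^ q) ∈ FA.Deform.primeAt A
    rw [FA.Deform.mem_primeAt]
    have e : ((j (τ • y - y ^ q) : FA.Deform.ZBar) : Qb) = φ (ι (y : R)) - ι (y : R) ^ q := by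
      show ι (τ (y : R) - (y : R) ^ q) = _
      rw [map_sub, map_pow, hτ]
    rw [e]
    exact FA.Density.sub_pow_mem_nonunits hφ (FA.Deform.zbar_mem_valuationSubring A (j y))
  have hmax : (Q₀.under (𝓞 𝕂)).IsMaximal := Ideal.IsMaximal.under (𝓞 𝕂) Q₀
  have hqv : (q : 𝓞 𝕂) ∈ Q₀.under (𝓞 𝕂) := by
    rw [Ideal.mem_comap, map_natCast]; exact hqQ
  have hcard : Nat.card (𝓞 𝕂 ⧸ Q₀.under (𝓞 𝕂)) = q := by
    refine FA.Chebotarev.natCard_quotient_of_forall_pow hq hmax hqv fun y => ?_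
    rw [Ideal.mem_comap, map_sub, map_pow]
    have h1 := neg_mem (hfrob₀ (algebraMap (𝓞 𝕂) (𝓞 R) y))
    rw [neg_sub] at h1
    convert h1 using 2
    exact RingOfIntegers.ext (τ.commutes (y : 𝕂)).symm
  let v : HeightOneSpectrum (𝓞 𝕂) := ⟨Q₀.under (𝓞 𝕂), hmax.isPrime,
    Ring.ne_bot_of_isMaximal_of_not_isField hmax (RingOfIntegers.not_isField _)⟩
  have hv : v.asIdeal ⊔ Ideal.span {(N : 𝓞 𝕂)} = ⊤ := by
    obtain ⟨a', b', hab⟩ := Int.isCoprime_iff_nat_coprime.mpr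
      (show ((q : ℤ).natAbs.Coprime ((N : ℤ).natAbs)) by
        simpa using hq.coprime_iff_not_dvd.mpr hqN)
    rw [Ideal.eq_top_iff_one]
    have h1 : (1 : 𝓞 𝕂) = (a' : 𝓞 𝕂) * q + (b' : 𝓞 𝕂) * N := by
      exact_mod_cast (congrArg (Int.cast (R := 𝓞 𝕂)) hab).symm
    rw [h1]
    exact add_mem (Ideal.mem_sup_left (Ideal.mul_mem_left _ _ hqv))
      (Ideal.mem_sup_right (Ideal.mul_mem_left _ _ (Ideal.mem_span_singleton_self _)))
  let Q : HeightOneSpectrum (𝓞 R) := ⟨Q₀, hQp, hQ0⟩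
  have hfrob : IsArithFrobAt (𝓞 𝕂) τ Q.asIdeal := fun y => by
    show _ ∈ Q₀
    rw [hcard]
    exact hfrob₀ y
  have hτu : τ = ω (intClass u) := AlgEquiv.ext fun z => ι.toRingHom.injective (by
    show ι (τ z) = ι (ω (intClass u) z)
    rw [hτ, hagree (ι z) (hRM ⟨z, rfl⟩)]
    exact hσu z)
  obtain ⟨z, hz⟩ := exists_generator hv (hinj ((hω v hv Q τ rfl hfrob).trans hτu))
  subst hN
  obtain ⟨u₁, w₁, hrep⟩ := exists_representation hd hd0 hs (v := v.asIdeal) (q := q) (M := M)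
    (c := rep u) (by rw [Ideal.absNorm_apply, Submodule.cardQuot_apply]; exact hcard) hz
  exact ⟨q, hq, hqS', hqN, A, φ, hA, hφ, hφs, fun y hy => hagree y (hM₀M hy), u₁, w₁, hrep⟩

/-- **An automorphism in the class of `c` is `± c` on the points killed by `n`.** -/
theorem exists_scalar (F : IntermediateField ℚ Qb) [FiniteDimensional ℚ F] (E : WeierstrassCurve F)
    [E.IsElliptic] (ψ : F →+* ℂ) {D f : ℤ} (hd : Squarefree d) (hd0 : d < 0) (hDdf : D = d * f ^ 2)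
    (hD : D < -4) {Λ : PeriodPair} (h2 : Λ.g₂ = ψ E.c₄ / 12) (h3 : Λ.g₃ = ψ E.c₆ / 216)
    (hring : IsMultiplierRing Λ D) (hs : s ^ 2 = (d : Qb)) [NumberField 𝕂] [IsTotallyComplex 𝕂]
    {n : ℕ} (hn : n ≠ 0) {M N : ℕ} [NeZero N]
    (hN : N = 2 * M) (hM : M = 8 * D.natAbs ^ 2 * n ^ 2)
    {R : Type} [Field R] [NumberField R] [Algebra 𝕂 R] [IsGalois 𝕂 R]
    (ω : RayClassGroup (Ideal.span {(N : 𝓞 𝕂)}) →* (R ≃ₐ[𝕂] R)) (hinj : Function.Injective ω)
    (hω : ∀ (v : HeightOneSpectrum (𝓞 𝕂)) (hv : v.asIdeal ⊔ Ideal.span {(N : 𝓞 𝕂)} = ⊤)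
      (Q : HeightOneSpectrum (𝓞 R)) (τ : R ≃ₐ[𝕂] R), Q.asIdeal.under (𝓞 𝕂) = v.asIdeal →
        IsArithFrobAt (𝓞 𝕂) τ Q.asIdeal → ω (rayClass modulus_ne_bot ⟨primeIdeal v, hv⟩) = τ)
    (ι : R →ₐ[𝕂] Qb) (σ : Qb ≃ₐ[F] Qb) (hσs : σ s = s) (u : (ZMod N)ˣ)
    (hσu : ∀ z : R, σ (ι z) = ι (ω (intClass u) z)) :
    ∃ ε : ℤ, (ε = 1 ∨ ε = -1) ∧
      ∀ Q : (E.toAffine⁄Qb).Point, n • Q = 0 → σ • Q = (ε * ((rep u : ℕ) : ℤ)) • Q := by
  haveI : IsGalois ℚ Qb := FA.EC.isGalois_algebraicClosure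
  haveI : Algebra.IsAlgebraic F Qb := Algebra.IsAlgebraic.tower_top (K := ℚ) F
  haveI : NumberField F := { }
  have hsK : s ∈ 𝕂 := IntermediateField.mem_adjoin_simple_self ℚ s
  have hK := FA.Jugendtraum.finrank_adjoin_sqrt hd0 hs
  have hD0 : D < 0 := by omega
  have hDabs : (D.natAbs : ℤ) ^ 2 = D ^ 2 := by rw [Int.natCast_natAbs, sq_abs]
  have hM0 : M ≠ 0 := by
    rw [hM]
    exact mul_ne_zero (mul_ne_zero (by norm_num) (pow_ne_zero _ (Int.natAbs_ne_zero.2 hD0.ne)))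
      (pow_ne_zero _ hn)
  have hN0 : N ≠ 0 := NeZero.ne N
  have hMZ : (M : ℤ) = 8 * D ^ 2 * (n : ℤ) ^ 2 := by rw [hM]; push_cast; rw [sq_abs]
  -- Chebotarev
  obtain ⟨m₀, hm₀0, hm₀⟩ := exists_good E
  set V : Set Qb := xP '' {Q : (E.toAffine⁄Qb).Point | n • Q = 0} ∪
    yP '' {Q : (E.toAffine⁄Qb).Point | n • Q = 0} with hV
  haveI : Finite V := (((finite_nsmul_eq_zero (W := E) hn).image _).union
    ((finite_nsmul_eq_zero (W := E) hn).image _)).to_subtype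
  haveI : FiniteDimensional ℚ (IntermediateField.adjoin ℚ V) :=
    IntermediateField.finiteDimensional_adjoin fun z _ => Algebra.IsIntegral.isIntegral z
  obtain ⟨q, hq, hqS, hqN, A, φ, hA, hφ, hφs, hagree, u₁, w₁, hrep⟩ :=
    exists_frobenius_representation hd hd0 hs hN ω hinj hω ι
      (σ := σ.restrictScalars ℚ) hσs u hσu (F ⊔ IntermediateField.adjoin ℚ V) m₀.divisors
  haveI := Fact.mk hq
  have hqM : ¬ q ∣ M := fun hd' => hqN (hd'.trans (hN ▸ dvd_mul_left M 2))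
  have hq2 : q ≠ 2 := fun e => hqN (e ▸ hN ▸ dvd_mul_right 2 M)
  let φF : Qb ≃ₐ[F] Qb := AlgEquiv.ofRingEquiv (f := φ.toRingEquiv) fun y =>
    (hagree y ((le_sup_left : F ≤ F ⊔ IntermediateField.adjoin ℚ V) y.2)).trans (σ.commutes y)
  have hφF : ∀ y, φF y = φ y := fun y => rfl
  have hVM : IntermediateField.adjoin ℚ V ≤ F ⊔ IntermediateField.adjoin ℚ V := le_sup_right
  obtain ⟨hI, hΔ⟩ := hm₀ q hq (fun hd' => hqS (Nat.mem_divisors.mpr ⟨hd', hm₀0⟩)) A hA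
  obtain ⟨a, ha⟩ := exists_trace hq hA hφ hφF hI hΔ
  obtain ⟨b, hb⟩ := FA.JugendtraumField.exists_normEquation E ψ hd
    ⟨Λ, h2, h3, omega D, fun k hk => by
      have := congrArg Complex.im hk
      rw [omega_im, Complex.intCast_im] at this
      linarith [Real.sqrt_pos.mpr (neg_pos.mpr (Int.cast_lt_zero (R := ℝ) |>.mpr hD0))],
      (hring _).2 ⟨0, 1, by simp⟩, (D : ℚ) / 2, (f : ℚ) / 2, by
      have hsq : ((Real.sqrt (-(D : ℝ)) : ℂ)) ^ 2 = -(D : ℂ) := by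
        rw [← Complex.ofReal_pow, Real.sq_sqrt (neg_nonneg.mpr (Int.cast_nonpos.mpr hD0.le))]
        push_cast; ring
      have hDC : (D : ℂ) = (d : ℂ) * (f : ℂ) ^ 2 := by exact_mod_cast congrArg Int.cast hDdf
      simp only [omega]
      push_cast
      linear_combination Complex.I ^ 2 / 4 * hsq - (D : ℂ) / 4 * Complex.I_sq + 1 / 4 * hDC⟩
    hs a q {q} fun r hr hrq => by
      have hqr : ¬ q ∣ r := fun hd' => hrq (Finset.mem_singleton.mpr
        ((Nat.prime_dvd_prime_iff_eq hq hr).mp hd').symm)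
      exact ⟨φF, hφs, (ha r hqr).1, fun c hc => ((ha r hqr).2 c hc).1⟩
  subst hN
  -- the action on the points killed by `M`
  obtain ⟨θ, t, m, htm, hθθ, hact, hfaith⟩ :=
    exists_action E ψ hD0 hDdf h2 h3 hring hs hM0
  obtain ⟨hcomm, α, k, hαk⟩ := hact φF hφs
  have hθkill : ∀ Q : (E.toAffine⁄Qb).Point, M • Q = 0 → M • θ Q = 0 := fun Q hQ => by
    rw [← map_nsmul, hQ, map_zero]
  obtain ⟨hα2, hk2⟩ := hfaith (α ^ 2 - m * k ^ 2 - a * α + q) (k * (2 * α + t * k - a))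
    fun Q hQ => by
      have h := (ha M hqM).1 Q hQ
      rw [hαk Q hQ, Affine.Point.algEquiv_smul_def φF (α • Q + k • θ Q), map_add, map_zsmul,
        map_zsmul, ← Affine.Point.algEquiv_smul_def φF Q,
        ← Affine.Point.algEquiv_smul_def φF (θ Q), ← hcomm, hαk Q hQ, map_add, map_zsmul,
        map_zsmul, hθθ Q hQ] at h
      rw [← h]
      module
  have hg : ((Int.gcd k (M : ℤ) : ℕ) : ℤ) ∣ 2 * α - a := by
    set r := Int.gcd k (M : ℤ) with hr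
    obtain ⟨k', hk'⟩ : (r : ℤ) ∣ k := Int.gcd_dvd_left k _
    have hrM : r ∣ M := Int.natCast_dvd_natCast.mp (Int.gcd_dvd_right k _)
    refine (((ha r fun h => hqM (h.trans hrM)).2 α) fun Q hQ => ?_).1.1
    have hQM : M • Q = 0 := by
      obtain ⟨l, hl⟩ := hrM
      rw [hl, mul_nsmul, hQ, nsmul_zero]
    rw [hαk Q hQM, hk', mul_comm, mul_zsmul', natCast_zsmul, smul_comm r k',
      ← map_nsmul θ, hQ, map_zero, zsmul_zero, add_zero]
  have hDM : D ∣ (M : ℤ) := ⟨8 * D * (n : ℤ) ^ 2, by rw [hMZ]; ring⟩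
  have hdisc : D ∣ a ^ 2 - 4 * (q : ℤ) := by
    have h := disc_congr hk2 hα2 hg
    rw [htm] at h
    have := dvd_add (hDM.trans h) (dvd_mul_right D (k ^ 2))
    rwa [sub_add_cancel] at this
  have hc : IsCoprime ((rep u : ℕ) : ℤ) (M : ℤ) := by
    have h : (rep u).Coprime (2 * M) := by
      rw [← ZMod.isUnit_iff_coprime, cast_rep]
      exact Units.isUnit u
    exact Int.isCoprime_iff_nat_coprime.mpr (by simpa using h.coprime_dvd_right (dvd_mul_left M 2))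
  obtain ⟨ε, hε, haε, hqc⟩ := trace_eq_sign hq hq2 hd0 hb hrep hD hDM hdisc hc
  obtain ⟨⟨α', hα'⟩, k', hk'⟩ := scalar_of_congr (n := n) (c := ε * ((rep u : ℕ) : ℤ))
    (by rw [htm]; exact hD0.ne) (by rw [htm, hMZ]) hk2 hα2 haε (by
      rw [mul_pow, show ε ^ 2 = 1 by rcases hε with rfl | rfl <;> norm_num, one_mul]
      exact hqc)
  refine ⟨ε, hε, fun Q hQ => ?_⟩
  have hMQ : M • Q = 0 := by
    rw [hM, show 8 * D.natAbs ^ 2 * n ^ 2 = n * (8 * D.natAbs ^ 2 * n) by ring, mul_nsmul, hQ,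
      nsmul_zero]
  have hφσ : φF • Q = σ • Q := by
    have hx' : φF (xP Q) = σ (xP Q) :=
      hagree _ (hVM (IntermediateField.subset_adjoin ℚ V (Or.inl ⟨Q, hQ, rfl⟩)))
    have hy' : φF (yP Q) = σ (yP Q) :=
      hagree _ (hVM (IntermediateField.subset_adjoin ℚ V (Or.inr ⟨Q, hQ, rfl⟩)))
    rcases Q with _ | ⟨u, w, h⟩
    · rfl
    obtain ⟨h', e⟩ := FA.Local.smul_some (σ := φF) E h
    obtain ⟨h'', e'⟩ := FA.Local.smul_some (σ := σ) E h
    rw [e, e']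
    exact (Affine.Point.some.injEq ..).mpr ⟨hx', hy'⟩
  rw [← hφσ, hαk Q hMQ,
    show α = ε * ((rep u : ℕ) : ℤ) + (n : ℤ) * α' by linear_combination hα', hk',
    add_zsmul, mul_comm (n : ℤ) α', mul_comm (n : ℤ) k', mul_zsmul _ α', mul_zsmul _ k',
    natCast_zsmul, natCast_zsmul, hQ, ← map_nsmul θ, hQ, map_zero, zsmul_zero, zsmul_zero,
    add_zero, add_zero]

end FA.CMTorsionAllOrders

end
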