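import Fermat.Agent.Root.SummaryRayClassFields
import Fermat.Agent.CMTorsionAllOrders.Frobenius

/-!
# Scalars in the image of Galois for discriminants below `-4`

The rational integers prime to `N` whose classes come from automorphisms fixing `F K` have index at
most `[F K : K]` and give scalars up to sign on the points killed by `n`. So these scalars have
index at most `[F K : ℚ]` in `(ℤ/n)ˣ`; only `1` among them fixes a point of order `n`, so then
`φ(n) ≤ [F K : ℚ]`.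
-/

set_option autoImplicit false
set_option linter.style.haveILetI false
set_option linter.unusedSectionVars false

noncomputable section

open WeierstrassCurve NumberField IsDedekindDomain Module FA.IsogenyNF FA.CMFields
open FA.Hecke (RayClassGroup)
open FA.CMRayClass (pmOne)
open FA.CMTorsionBound (upPoint upPoint_injective)
open scoped WeierstrassCurve.Affine Classical

local notation "Qb" => AlgebraicClosure ℚ
local notation "GQ" => AlgebraicClosure ℚ ≃ₐ[ℚ] AlgebraicClosure ℚ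

namespace FA.CMTorsionAllOrders

variable {d : ℤ} {s : Qb}

set_option quotPrecheck false in
local notation "𝕂" => IntermediateField.adjoin ℚ ({s} : Set (AlgebraicClosure ℚ))

/-- `ℚ(√d)` has no real places. -/
theorem isTotallyComplex_adjoin [NumberField 𝕂] (hd0 : d < 0) (hs : s ^ 2 = (d : Qb)) :
    IsTotallyComplex 𝕂 := ⟨fun w => by
  rw [← InfinitePlace.not_isReal_iff_isComplex]
  intro hw
  set sK : 𝕂 := ⟨s, IntermediateField.mem_adjoin_simple_self ℚ s⟩
  have hsK2 : sK ^ 2 = (d : 𝕂) := Subtype.ext (by simpa [sK] using hs)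
  have h : (InfinitePlace.embedding_of_isReal hw sK) ^ 2 = (d : ℝ) := by
    rw [← map_pow, hsK2, map_intCast]
  have : (d : ℝ) < 0 := Int.cast_lt_zero.mpr hd0
  nlinarith [sq_nonneg (InfinitePlace.embedding_of_isReal hw sK)]⟩

/-- The units modulo `n` whose multiplication on the points killed by `n` comes from an automorphism
fixing `F` and `s`. -/
def scalarGroup {F : IntermediateField ℚ Qb} (E : WeierstrassCurve F) (s : Qb) (n : ℕ) :
    Subgroup (ZMod n)ˣ where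
  carrier := {c | ∃ σ : Qb ≃ₐ[F] Qb, σ s = s ∧ ∀ z : ℤ, (z : ZMod n) = (c : ZMod n) →
    ∀ Q : (E.toAffine⁄Qb).Point, n • Q = 0 → σ • Q = z • Q}
  one_mem' := ⟨1, rfl, fun z hz Q hQ => by
    obtain ⟨w, hw⟩ := (ZMod.intCast_eq_intCast_iff_dvd_sub 1 z n).1 (by simpa using hz.symm)
    rw [one_smul, show z = 1 + w * (n : ℤ) by linarith, add_zsmul, one_zsmul, mul_zsmul,
      natCast_zsmul, hQ, zsmul_zero, add_zero]⟩
  mul_mem' := by
    rintro a b ⟨σ, hσs, hσ⟩ ⟨τ, hτs, hτ⟩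
    obtain ⟨x, hx⟩ := ZMod.intCast_surjective (a : ZMod n)
    obtain ⟨y, hy⟩ := ZMod.intCast_surjective (b : ZMod n)
    refine ⟨σ * τ, by rw [AlgEquiv.mul_apply, hτs, hσs], fun z hz Q hQ => ?_⟩
    obtain ⟨w, hw⟩ := (ZMod.intCast_eq_intCast_iff_dvd_sub (x * y) z n).1
      (by rw [hz]; push_cast; rw [hx, hy])
    have hyQ : n • (y • Q) = 0 := by rw [smul_comm, hQ, zsmul_zero]
    rw [mul_smul, hτ y hy Q hQ, hσ x hx _ hyQ, show z = x * y + w * (n : ℤ) by linarith,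
      add_zsmul, mul_zsmul, mul_zsmul, natCast_zsmul, hQ, zsmul_zero, add_zero]
  inv_mem' := by
    rintro a ⟨σ, hσs, hσ⟩
    obtain ⟨x, hx⟩ := ZMod.intCast_surjective (a : ZMod n)
    refine ⟨σ⁻¹, ?_, fun z hz Q hQ => ?_⟩
    · conv_lhs => rw [← hσs]
      exact σ.symm_apply_apply s
    obtain ⟨w, hw⟩ := (ZMod.intCast_eq_intCast_iff_dvd_sub 1 (x * z) n).1
      (by push_cast; rw [hx, hz, Units.mul_inv])
    have hzQ : n • (z • Q) = 0 := by rw [smul_comm, hQ, zsmul_zero]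
    rw [inv_smul_eq_iff, hσ x hx _ hzQ, ← mul_zsmul, show x * z = 1 + w * (n : ℤ) by linarith,
      add_zsmul, one_zsmul, mul_zsmul, natCast_zsmul, hQ, zsmul_zero, add_zero]

section Image

/-- The automorphisms of `R` induced by those fixing `G` and `s`. -/
def imageGroup {R : Type} [Field R] [Algebra 𝕂 R] (ι : R →ₐ[𝕂] Qb) (G : IntermediateField ℚ Qb) :
    Subgroup (R ≃ₐ[𝕂] R) where
  carrier := {τ | ∃ σ : GQ, σ s = s ∧ (∀ z ∈ G, σ z = z) ∧ ∀ z : R, σ (ι z) = ι (τ z)}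
  one_mem' := ⟨1, rfl, fun _ _ => rfl, fun _ => rfl⟩
  mul_mem' := by
    rintro a b ⟨σ, hσs, hσG, hσ⟩ ⟨ρ, hρs, hρG, hρ⟩
    exact ⟨σ * ρ, by rw [AlgEquiv.mul_apply, hρs, hσs],
      fun z hz => by rw [AlgEquiv.mul_apply, hρG z hz, hσG z hz],
      fun z => by rw [AlgEquiv.mul_apply, hρ, hσ, AlgEquiv.mul_apply]⟩
  inv_mem' := by
    rintro a ⟨σ, hσs, hσG, hσ⟩
    refine ⟨σ⁻¹, ?_, fun z hz => ?_, fun z => ?_⟩
    · conv_lhs => rw [← hσs]
      exact σ.symm_apply_apply s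
    · conv_lhs => rw [← hσG z hz]
      exact σ.symm_apply_apply z
    · have h := hσ (a⁻¹ z)
      rw [show a (a⁻¹ z) = z from a.apply_symm_apply z] at h
      conv_lhs => rw [← h]
      exact σ.symm_apply_apply _

theorem imageGroup_antitone {R : Type} [Field R] [Algebra 𝕂 R] (ι : R →ₐ[𝕂] Qb)
    {G G₁ : IntermediateField ℚ Qb} (h : G ≤ G₁) :
    imageGroup ι G₁ ≤ imageGroup ι G := by
  rintro a ⟨σ, hσs, hσG, hσ⟩
  exact ⟨σ, hσs, fun z hz => hσG z (h hz), hσ⟩

/-- **The index of the image divides the degree of `G K` over `K`.** -/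
theorem index_imageGroup_dvd [NumberField 𝕂] (hd0 : d < 0) (hs : s ^ 2 = (d : Qb))
    {R : Type} [Field R] [NumberField R] [Algebra 𝕂 R] [IsGalois 𝕂 R]
    (ι : R →ₐ[𝕂] Qb) (G : IntermediateField ℚ Qb) [FiniteDimensional ℚ G] :
    2 * (imageGroup ι G).index ∣ finrank ℚ (G ⊔ 𝕂 : IntermediateField ℚ Qb) := by
  haveI : IsGalois ℚ Qb := FA.EC.isGalois_algebraicClosure
  haveI : Algebra.IsAlgebraic 𝕂 Qb := Algebra.IsAlgebraic.tower_top (K := ℚ) 𝕂
  haveI : IsGalois 𝕂 Qb := IsGalois.tower_top_of_isGalois ℚ 𝕂 Qb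
  haveI : FiniteDimensional 𝕂 R := Module.Finite.of_restrictScalars_finite ℚ 𝕂 R
  letI : Algebra R Qb := ι.toRingHom.toAlgebra
  haveI : IsScalarTower 𝕂 R Qb := IsScalarTower.of_algebraMap_eq fun k => (ι.commutes k).symm
  set G₁ : IntermediateField ℚ Qb := G ⊔ 𝕂 with hG₁
  haveI : FiniteDimensional ℚ G₁ := IntermediateField.finiteDimensional_sup _ _
  set G' : IntermediateField 𝕂 Qb :=
    IntermediateField.extendScalars (le_sup_right : 𝕂 ≤ G₁) with hG'
  haveI : Module.Finite ℚ G' := (inferInstance : Module.Finite ℚ G₁)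
  haveI : FiniteDimensional 𝕂 G' := Module.Finite.of_restrictScalars_finite ℚ 𝕂 G'
  set H := imageGroup ι G with hH
  have hle : (IntermediateField.fixedField H).map ι ≤ G' := by
    rintro _ ⟨z, hz, rfl⟩
    rw [← InfiniteGalois.fixedField_fixingSubgroup G', IntermediateField.mem_fixedField_iff]
    intro g hg
    have hgG : ∀ w ∈ G₁, g w = w := fun w hw => hg ⟨w, hw⟩
    have hz' := IntermediateField.mem_fixedField_iff _ _ |>.1 hz
      (AlgEquiv.restrictNormalHom R g) ⟨g.restrictScalars ℚ,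
        hgG s ((le_sup_right : 𝕂 ≤ G₁) (IntermediateField.mem_adjoin_simple_self ℚ s)),
        fun w hw => hgG w ((le_sup_left : G ≤ G₁) hw),
        fun w => (AlgEquiv.restrictNormal_commutes g R w).symm⟩
    exact ((AlgEquiv.restrictNormal_commutes g R z).symm.trans (congrArg ι hz') :)
  have h1 := Module.finrank_mul_finrank 𝕂 (IntermediateField.fixedField H) R
  rw [IntermediateField.finrank_fixedField_eq_card, mul_comm,
    show finrank 𝕂 R = Nat.card (R ≃ₐ[𝕂] R) from (IsGalois.card_aut_eq_finrank 𝕂 R).symm,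
    ← Subgroup.card_mul_index H] at h1
  rw [show finrank ℚ G₁ = finrank ℚ 𝕂 * finrank 𝕂 G' from (finrank_mul_finrank ℚ 𝕂 G').symm,
    FA.Jugendtraum.finrank_adjoin_sqrt hd0 hs, ← Nat.eq_of_mul_eq_mul_left Nat.card_pos h1,
    (IntermediateField.equivMap (IntermediateField.fixedField H) ι).toLinearEquiv.finrank_eq]
  exact mul_dvd_mul_left 2 (IntermediateField.finrank_dvd_of_le_right hle)

end Image

/-- **The scalars up to sign have index dividing that of the image among the classes of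
integers.** -/
theorem scalarGroup_sup_index_dvd (F : IntermediateField ℚ Qb) [FiniteDimensional ℚ F]
    (E : WeierstrassCurve F) [E.IsElliptic] (ψ : F →+* ℂ) {D f : ℤ} (hd : Squarefree d)
    (hd0 : d < 0) (hDdf : D = d * f ^ 2) (hD : D < -4) {Λ : PeriodPair}
    (h2 : Λ.g₂ = ψ E.c₄ / 12) (h3 : Λ.g₃ = ψ E.c₆ / 216) (hring : IsMultiplierRing Λ D)
    (hs : s ^ 2 = (d : Qb)) [NumberField 𝕂] [IsTotallyComplex 𝕂] {n : ℕ} (hn : n ≠ 0) {M N : ℕ}
    [NeZero N] (hN : N = 2 * M) (hM : M = 8 * D.natAbs ^ 2 * n ^ 2)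
    {R : Type} [Field R] [NumberField R] [Algebra 𝕂 R] [IsGalois 𝕂 R]
    (ω : RayClassGroup (Ideal.span {(N : 𝓞 𝕂)}) →* (R ≃ₐ[𝕂] R)) (hinj : Function.Injective ω)
    (hω : FA.RayFields.FrobeniusClasses R (modulus_ne_bot (K := 𝕂) (N := N)) ω)
    (ι : R →ₐ[𝕂] Qb) :
    (scalarGroup E s n ⊔ pmOne (ZMod n)).index ∣
      (imageGroup ι F).relIndex (ω.comp (intClass (K := 𝕂) (N := N))).range := by
  haveI : NeZero n := ⟨hn⟩
  have hnN : n ∣ N := ⟨2 * (8 * D.natAbs ^ 2 * n), by rw [hN, hM]; ring⟩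
  set T : (ZMod N)ˣ →* (R ≃ₐ[𝕂] R) := ω.comp intClass with hT
  set S : Subgroup (ZMod N)ˣ := (imageGroup ι F).comap T with hS
  set U : Subgroup (ZMod n)ˣ := scalarGroup E s n with hU
  have hSle : S ≤ (U ⊔ pmOne (ZMod n)).comap (ZMod.unitsMap hnN) := by
    intro u hu
    obtain ⟨g, hgs, hgF, hgu⟩ := hu
    let σ : Qb ≃ₐ[F] Qb := AlgEquiv.ofRingEquiv (f := g.toRingEquiv) fun z => hgF z z.2
    have hσs : σ s = s := hgs
    have hσu : ∀ z : R, σ (ι z) = ι (ω (intClass u) z) := hgu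
    obtain ⟨ε, hε, hsc⟩ := exists_scalar F E ψ hd hd0 hDdf hD h2 h3 hring hs hn hN hM ω hinj
      (fun v hv Q τ hQ hτ => (hω v hv Q hQ).2 τ hτ) ι σ hσs u hσu
    have hval : ((ZMod.unitsMap hnN u : (ZMod n)ˣ) : ZMod n) = ((rep u : ℕ) : ZMod n) := by
      rw [← map_natCast (ZMod.castHom hnN (ZMod n)), cast_rep]
      rfl
    obtain ⟨δ, hδ, hδε⟩ : ∃ δ ∈ pmOne (ZMod n), ((δ : (ZMod n)ˣ) : ZMod n) = (ε : ZMod n) := by
      rcases hε with rfl | rfl
      · exact ⟨1, Or.inl rfl, by simp⟩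
      · exact ⟨-1, Or.inr rfl, by simp⟩
    have hmem : δ * ZMod.unitsMap hnN u ∈ U := by
      refine ⟨σ, hσs, fun z hz Q hQ => ?_⟩
      obtain ⟨w, hw⟩ := (ZMod.intCast_eq_intCast_iff_dvd_sub (ε * ((rep u : ℕ) : ℤ)) z n).1
        (by rw [hz, Units.val_mul, hval, hδε]; push_cast; rfl)
      rw [hsc Q hQ, show z = ε * ((rep u : ℕ) : ℤ) + w * (n : ℤ) by linarith,
        add_zsmul (Q) _ (w * (n : ℤ)), mul_zsmul Q w, natCast_zsmul, hQ, zsmul_zero, add_zero]
    show ZMod.unitsMap hnN u ∈ U ⊔ pmOne (ZMod n)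
    rw [show ZMod.unitsMap hnN u = δ⁻¹ * (δ * ZMod.unitsMap hnN u) by group]
    exact mul_mem (Subgroup.mem_sup_right (inv_mem hδ)) (Subgroup.mem_sup_left hmem)
  rw [← Subgroup.index_comap]
  refine dvd_trans ?_ (Subgroup.index_dvd_of_le hSle)
  rw [Subgroup.index_comap_of_surjective _ (ZMod.unitsMap_surjective hnN)]

/-- The sign costs at most a factor two. -/
theorem index_le_two_mul_sup (n : ℕ) [NeZero n] (U : Subgroup (ZMod n)ˣ) :
    U.index ≤ 2 * (U ⊔ pmOne (ZMod n)).index := by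
  have hcard : Nat.card (pmOne (ZMod n)) ≤ 2 := by
    refine le_of_eq_of_le (Nat.card_coe_set_eq _) ((Set.ncard_le_ncard ?_
      (Set.toFinite {1, -1})).trans ((Set.ncard_insert_le _ _).trans (by simp)))
    rintro z (rfl | rfl) <;> simp
  calc U.index = U.relIndex (U ⊔ pmOne (ZMod n)) * (U ⊔ pmOne (ZMod n)).index :=
        (Subgroup.relIndex_mul_index le_sup_left).symm
    _ ≤ _ := by
      refine Nat.mul_le_mul_right _ ?_
      rw [sup_comm, Subgroup.relIndex_sup_right]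
      exact (Nat.le_of_dvd Nat.card_pos (Subgroup.index_dvd_card _)).trans hcard

/-- **The scalars in the image of Galois have index at most `[F K : ℚ]`.** -/
theorem scalarGroup_index_le (F : IntermediateField ℚ Qb) [FiniteDimensional ℚ F]
    (E : WeierstrassCurve F) [E.IsElliptic] (ψ : F →+* ℂ) {D f : ℤ} (hd : Squarefree d)
    (hd0 : d < 0) (hDdf : D = d * f ^ 2) (hD : D < -4) {Λ : PeriodPair}
    (h2 : Λ.g₂ = ψ E.c₄ / 12) (h3 : Λ.g₃ = ψ E.c₆ / 216) (hring : IsMultiplierRing Λ D)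
    (hs : s ^ 2 = (d : Qb)) [NumberField 𝕂] {n : ℕ} (hn : n ≠ 0) :
    (scalarGroup E s n).index ≤ finrank ℚ (F ⊔ 𝕂 : IntermediateField ℚ Qb) := by
  haveI := isTotallyComplex_adjoin hd0 hs
  set M : ℕ := 8 * D.natAbs ^ 2 * n ^ 2 with hM
  set N : ℕ := 2 * M with hN
  haveI : NeZero N := ⟨by
    rw [hN, hM]
    exact mul_ne_zero two_ne_zero (mul_ne_zero (mul_ne_zero (by norm_num)
      (pow_ne_zero _ (Int.natAbs_ne_zero.2 (by omega)))) (pow_ne_zero _ hn))⟩
  obtain ⟨R, _, _, _, _, hab, ω, hωb, hω, -, -⟩ :=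
    FA.Summary.ray_class_field 𝕂 (modulus_ne_bot (K := 𝕂) (N := N))
  haveI : FiniteDimensional 𝕂 R := Module.Finite.of_restrictScalars_finite ℚ 𝕂 R
  haveI : Algebra.IsAlgebraic 𝕂 R := Algebra.IsAlgebraic.of_finite _ _
  let ι : R →ₐ[𝕂] Qb := IsAlgClosed.lift
  haveI : NeZero n := ⟨hn⟩
  haveI : FiniteDimensional ℚ (F ⊔ 𝕂 : IntermediateField ℚ Qb) :=
    IntermediateField.finiteDimensional_sup _ _
  haveI : ((imageGroup ι F) : Subgroup (R ≃ₐ[𝕂] R)).Normal :=
    ⟨fun x hx g => by rwa [hab g x, mul_inv_cancel_right]⟩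
  refine (index_le_two_mul_sup n _).trans (Nat.le_of_dvd Module.finrank_pos
    (dvd_trans (mul_dvd_mul_left 2 ?_) (index_imageGroup_dvd hd0 hs ι F)))
  exact (scalarGroup_sup_index_dvd F E ψ hd hd0 hDdf hD h2 h3 hring hs hn rfl hM ω hωb.1 hω
    ι).trans (Subgroup.relIndex_dvd_index_of_normal _ _)

/-- Only the scalar `1` fixes a point of order `n`. -/
theorem scalarGroup_eq_bot {F : IntermediateField ℚ Qb} (E : WeierstrassCurve F) [E.IsElliptic]
    (s : Qb) {n : ℕ} {P : E.toAffine.Point} (hP : addOrderOf P = n) :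
    scalarGroup E s n = ⊥ := by
  refine (Subgroup.eq_bot_iff_forall _).2 fun c hc => ?_
  obtain ⟨σ, -, hσ⟩ := hc
  obtain ⟨z, hz⟩ := ZMod.intCast_surjective (c : ZMod n)
  have hord : addOrderOf (upPoint E P) = n :=
    (addOrderOf_injective (upPoint E) (upPoint_injective E) P).trans hP
  have h := (hσ z hz (upPoint E P) (hord ▸ addOrderOf_nsmul_eq_zero _)).symm.trans
    (smul_upPoint E σ P)
  have hdvd : (n : ℤ) ∣ z - 1 := by
    rw [← hord]
    refine addOrderOf_dvd_iff_zsmul_eq_zero.mpr ?_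
    rw [sub_zsmul, one_zsmul, h, add_neg_cancel]
  refine Units.ext ?_
  rw [← hz, Units.val_one, ← Int.cast_one]
  exact ((ZMod.intCast_eq_intCast_iff_dvd_sub 1 z n).2 hdvd).symm

/-- **The bound for discriminants below `-4`**: `φ(n) ≤ [F K : ℚ]`. -/
theorem totient_le (F : IntermediateField ℚ Qb) [FiniteDimensional ℚ F] (E : WeierstrassCurve F)
    [E.IsElliptic] (ψ : F →+* ℂ) {D f : ℤ} (hd : Squarefree d) (hd0 : d < 0) (hDdf : D = d * f ^ 2)
    (hD : D < -4) {Λ : PeriodPair} (h2 : Λ.g₂ = ψ E.c₄ / 12) (h3 : Λ.g₃ = ψ E.c₆ / 216)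
    (hring : IsMultiplierRing Λ D) (hs : s ^ 2 = (d : Qb)) [NumberField 𝕂]
    {n : ℕ} (hn : n ≠ 0) {P : E.toAffine.Point} (hP : addOrderOf P = n) :
    n.totient ≤ finrank ℚ (F ⊔ 𝕂 : IntermediateField ℚ Qb) := by
  haveI : NeZero n := ⟨hn⟩
  have h := scalarGroup_index_le F E ψ hd hd0 hDdf hD h2 h3 hring hs hn
  rwa [scalarGroup_eq_bot E s hP, Subgroup.index_bot, Nat.card_eq_fintype_card,
    ZMod.card_units_eq_totient] at h

end FA.CMTorsionAllOrders

end
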