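import Fermat.Agent.CMRayClass.Torsion

/-!
# The multipliers of a lattice form an order

With multiplication the multipliers of a lattice are `ℤ[ω]` for a primitive one `ω`, so the order
of discriminant `t² - 4 m < 0` where `ω² - t ω + m = 0`.
-/

set_option autoImplicit false
set_option linter.unusedSectionVars false

noncomputable section

open FA.CMFields FA.Singular FA.IsogenyNF

namespace FA.CMTorsionAllOrders

/-- **The multipliers of a lattice with multiplication form an order.** -/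
theorem exists_multiplierRing {L : PeriodPair}
    (h : ∃ ω : ℂ, (∀ m : ℤ, ω ≠ m) ∧ ∀ l ∈ L.lattice, ω * l ∈ L.lattice) :
    ∃ D : ℤ, D < 0 ∧ IsMultiplierRing L D := by
  obtain ⟨ω₀, hω₀, hst₀⟩ := h
  have hcm : ¬ NoCM L := fun hno => by
    obtain ⟨m, hm⟩ := hno ω₀ hst₀
    exact hω₀ m hm
  obtain ⟨ω, hω, hst, hprim⟩ := exists_primitive hcm
  obtain ⟨A, B, C, E, h1, h2, hB, hquad, -⟩ := exists_matrix hω hst
  obtain ⟨r₁, r₂, r₃, hr⟩ := hprim.exists_bezout h1 h2
  have hindep : ∀ {x y x' y' : ℤ}, (x : ℂ) * L.ω₁ + y * L.ω₂ = (x' : ℂ) * L.ω₁ + y' * L.ω₂ →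
      x = x' ∧ y = y' := fun {x y x' y'} hxy => by
    have := LinearIndependent.pair_iff.mp L.indep ((x - x' : ℤ) : ℝ) ((y - y' : ℤ) : ℝ) (by
      simp only [Complex.real_smul]
      push_cast
      linear_combination hxy)
    exact ⟨sub_eq_zero.mp (by exact_mod_cast this.1), sub_eq_zero.mp (by exact_mod_cast this.2)⟩
  have hw1 : L.ω₁ ≠ 0 := L.indep.ne_zero 0
  -- every multiplier lies in `ℤ + ℤ ω`
  have hgen : ∀ w : ℂ, Stable L w ↔ ∃ x y : ℤ, w = (x : ℂ) + (y : ℂ) * ω := by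
    intro w
    constructor
    · intro hw
      obtain ⟨a, b, e1⟩ := PeriodPair.mem_lattice.1 (hw _ L.ω₁_mem_lattice)
      obtain ⟨c, e, e2⟩ := PeriodPair.mem_lattice.1 (hw _ L.ω₂_mem_lattice)
      obtain ⟨i1, i2⟩ := hindep (x := a * A + b * C) (y := a * B + b * E)
        (x' := A * a + B * c) (y' := A * b + B * e) (by
          push_cast
          linear_combination ω * e1 - (a : ℂ) * h1 - (b : ℂ) * h2 + w * h1 -
            (A : ℂ) * e1 - (B : ℂ) * e2)
      refine ⟨a - (r₁ * b + r₂ * c + r₃ * (a - e)) * A, r₁ * b + r₂ * c + r₃ * (a - e), ?_⟩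
      have hk : (r₁ * b + r₂ * c + r₃ * (a - e)) * B = b := by
        linear_combination b * hr + r₃ * i2 - r₂ * i1
      have hk' : ((r₁ * b + r₂ * c + r₃ * (a - e) : ℤ) : ℂ) * B = b := by exact_mod_cast hk
      refine mul_right_cancel₀ hw1 ?_
      push_cast at hk' ⊢
      linear_combination -e1 - ((r₁ : ℂ) * b + r₂ * c + r₃ * ((a : ℂ) - e)) * h1 -
        L.ω₂ * hk'
    · rintro ⟨x, y, rfl⟩ l hl
      rw [add_mul, mul_assoc, ← zsmul_eq_mul, ← zsmul_eq_mul]
      exact Submodule.add_mem _ (Submodule.smul_mem _ _ hl) (Submodule.smul_mem _ _ (hst l hl))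
  -- the discriminant
  set t : ℤ := A + E with ht
  set m : ℤ := A * E - B * C with hm
  have hreal : ω.im ≠ 0 := fun hi => by
    have hre : ω = (ω.re : ℂ) := Complex.ext (by simp) (by simp [hi])
    have := LinearIndependent.pair_iff.mp L.indep (ω.re - A) (-(B : ℝ)) (by
      simp only [Complex.real_smul]
      push_cast
      rw [← hre]
      linear_combination h1)
    exact hB (by exact_mod_cast neg_eq_zero.1 this.2)
  set D : ℤ := t ^ 2 - 4 * m with hDdef
  have hsq : (2 * ω - (t : ℂ)) ^ 2 = (D : ℂ) := by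
    rw [hDdef]; push_cast
    linear_combination 4 * hquad
  have hre : 2 * ω.re = t := by
    have := congrArg Complex.im hsq
    simp [sq] at this
    have h' : (2 * ω.re - t) * ω.im = 0 := by linarith
    linarith [(mul_eq_zero.1 h').resolve_right hreal]
  have him : (2 * ω.im) ^ 2 = -(D : ℝ) := by
    have := congrArg Complex.re hsq
    simp [sq] at this
    nlinarith [hre]
  have hD : D < 0 := by
    have : (D : ℝ) < 0 := by nlinarith [sq_pos_of_ne_zero (mul_ne_zero two_ne_zero hreal)]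
    exact_mod_cast this
  obtain ⟨r, hrp⟩ : (2 : ℤ) ∣ t - D := by
    have : t - D = -(t * (t - 1)) + 4 * m := by rw [hDdef]; ring
    rw [this]
    refine dvd_add (dvd_neg.mpr ?_) ⟨2 * m, by ring⟩
    rcases Int.even_or_odd t with ⟨r, hr⟩ | ⟨r, hr⟩
    · exact ⟨r * (t - 1), by rw [hr]; ring⟩
    · exact ⟨t * r, by rw [hr]; ring⟩
  have hgenD : ∃ ε : ℤ, (ε = 1 ∨ ε = -1) ∧ ∃ x : ℤ, ω = (x : ℂ) + (ε : ℂ) * omega D := by
    have hs : Real.sqrt (-(D : ℝ)) = |2 * ω.im| := by rw [← him, Real.sqrt_sq_eq_abs]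
    have hr' : (t : ℝ) - D = 2 * r := by exact_mod_cast hrp
    rcases le_total 0 (2 * ω.im) with hp | hp
    · refine ⟨1, Or.inl rfl, r, Complex.ext ?_ ?_⟩
      · simp [omega, Complex.div_ofNat_re]; linarith
      · simp [omega, Complex.div_ofNat_im, hs, abs_of_nonneg hp]
    · refine ⟨-1, Or.inr rfl, r + D, Complex.ext ?_ ?_⟩
      · simp [omega, Complex.div_ofNat_re]; linarith
      · simp [omega, Complex.div_ofNat_im, hs, abs_of_nonpos hp]
        ring
  obtain ⟨ε, hε, x₀, hx₀⟩ := hgenD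
  refine ⟨D, hD, fun w => (hgen w).trans ⟨?_, ?_⟩⟩
  · rintro ⟨x, y, rfl⟩
    exact ⟨x + y * x₀, y * ε, by rw [hx₀]; push_cast; ring⟩
  · rintro ⟨x, y, rfl⟩
    refine ⟨x - y * ε * x₀, y * ε, ?_⟩
    rcases hε with rfl | rfl <;> (rw [hx₀]; push_cast; ring)

/-- The discriminant of a multiplier ring is a square times a squarefree integer. -/
theorem exists_squarefree_mul_sq {D : ℤ} (hD : D < 0) :
    ∃ d f : ℤ, Squarefree d ∧ d < 0 ∧ f ≠ 0 ∧ D = d * f ^ 2 := by
  obtain ⟨a, b, hab, ha⟩ := Nat.sq_mul_squarefree D.natAbs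
  have hD' : ((b ^ 2 * a : ℕ) : ℤ) = -D := by rw [hab]; omega
  push_cast at hD'
  have ha0 : a ≠ 0 := ha.ne_zero
  refine ⟨-(a : ℤ), b, ?_, by omega, fun hb => ?_, by linear_combination hD'⟩
  · rw [← Int.squarefree_natAbs]
    simpa using ha
  · rw [hb] at hD'
    simp at hD'
    omega

/-- The generator of a multiplier ring is primitive. -/
theorem primitive_omega {D : ℤ} (hD : D < 0) {L : PeriodPair} (h : IsMultiplierRing L D) :
    Primitive L (omega D) := fun p a hp hst => by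
  obtain ⟨x, y, e⟩ := (h _).1 hst
  have hp0 : (p : ℂ) ≠ 0 := Nat.cast_ne_zero.2 hp.ne_zero
  rw [div_eq_iff hp0] at e
  have hi := congrArg Complex.im e
  simp [omega_im] at hi
  have hpos : 0 < Real.sqrt (-(D : ℝ)) :=
    Real.sqrt_pos.mpr (neg_pos.mpr (Int.cast_lt_zero.mpr hD))
  have h1 : ((y * p : ℤ) : ℝ) = ((1 : ℤ) : ℝ) := by
    push_cast
    apply mul_left_cancel₀ (div_pos hpos two_pos).ne'
    linear_combination -hi
  have h2 : (p : ℤ) ∣ 1 := ⟨y, by rw [mul_comm]; exact_mod_cast h1.symm⟩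
  exact hp.one_lt.ne' (Nat.dvd_one.1 (Int.natCast_dvd_natCast.1 (by simpa using h2)))

end FA.CMTorsionAllOrders

end
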